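import Fermat.Agent.S36.Glue.Interface
import Fermat.Agent.S36.Hecke.BetaNorm
import Fermat.Agent.DR.Gal.Level

/-!
# S36, block LVL: change of the auxiliary level

`KVNewInertia (M' * q) q p → KVNewInertia (M * q) q p` for `M ∣ M'`, `q ∤ M'`.  Hence Theorem X has
only to be proved at neat levels (`4 ∣ M` or `9 ∣ M`).

The pull-back `lvlKV` (kernel killed by the degree) commutes with Galois, with `β_*` (norm formula
on `q`-expansions at both levels) and with `α_*` (base change of norms: both degrees are the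
prime `q` and `j(t^(q²))` does not belong to `F(M' q)`, as one sees after applying the Fricke
involution).
-/

set_option autoImplicit false
set_option linter.style.haveILetI false
set_option linter.unusedSectionVars false

noncomputable section

namespace Fermat.Agent.S36.Lvl

open AlgebraicCurve ModularCurve Fermat.Agent.S24 Fermat.Agent.GAL Fermat.Agent.GAL.Hecke
  Fermat.Agent.DR Fermat.Agent.DR.Gal Fermat.Agent.S36.Hecke Fermat.Agent.GAL.NormFormula

section Abstract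

/-- **Base change of norms in prime degree.** -/
theorem norm_baseChange_of_prime {F₁ F₂ F₁' F₂' : Type*} [Field F₁] [Field F₂] [Field F₁']
    [Field F₂'] [CharZero F₁] [CharZero F₁'] [Algebra F₁ F₂] [Algebra F₁' F₂']
    [FiniteDimensional F₁ F₂] [FiniteDimensional F₁' F₂']
    (l₁ : F₁ →+* F₁') (l₂ : F₂ →+* F₂')
    (hl : ∀ x, l₂ (algebraMap F₁ F₂ x) = algebraMap F₁' F₂' (l₁ x))
    (hdeg : Module.finrank F₁ F₂ = Module.finrank F₁' F₂')
    (hp : (Module.finrank F₁' F₂').Prime)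
    (z : F₂) (hz : l₂ z ∉ Set.range (algebraMap F₁' F₂')) (f : F₂) :
    l₁ (Algebra.norm F₁ f) = Algebra.norm F₁' (l₂ f) := by
  classical
  let Ω := AlgebraicClosure F₂'
  have h1 := Algebra.norm_eq_prod_embeddings F₁' Ω (l₂ f)
  have hsimple := Subalgebra.isSimpleOrder_of_finrank_prime F₁' F₂' hp
  have hinj : Function.Injective
      (fun σ : F₂' →ₐ[F₁'] Ω => (σ : F₂' →+* Ω).comp l₂) := by
    intro σ τ hστ
    have hz' : l₂ z ∈ AlgHom.equalizer σ τ := by
      rw [AlgHom.mem_equalizer]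
      exact RingHom.congr_fun hστ z
    rcases eq_bot_or_eq_top (AlgHom.equalizer σ τ) with h | h
    · rw [h, Algebra.mem_bot] at hz'
      exact absurd hz' hz
    · ext y
      have : y ∈ AlgHom.equalizer σ τ := by rw [h]; exact Algebra.mem_top
      exact this
  have h2 := norm_eq_prod_of_embeddings ((algebraMap F₁' Ω).comp l₁)
    (fun σ : F₂' →ₐ[F₁'] Ω => (σ : F₂' →+* Ω).comp l₂)
    (fun σ x => by
      show σ (l₂ (algebraMap F₁ F₂ x)) = algebraMap F₁' Ω (l₁ x)
      rw [hl, AlgHom.commutes])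
    hinj (by rw [hdeg, AlgHom.card]) f
  apply (algebraMap F₁' Ω).injective
  rw [h1]
  exact h2

variable {K : Type*} [Field K]

/-- Base change of `normAlong` in prime degree. -/
theorem normAlong_baseChange_of_prime {F₁ F₂ F₁' F₂' : Type*} [Field F₁] [Field F₂] [Field F₁']
    [Field F₂'] [CharZero F₁] [CharZero F₁'] [Algebra K F₁] [Algebra K F₂] [Algebra K F₁']
    [Algebra K F₂'] (a : F₁ →ₐ[K] F₂) (a' : F₁' →ₐ[K] F₂')
    (ha : FiniteAlong K a) (ha' : FiniteAlong K a')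
    (l₁ : F₁ →+* F₁') (l₂ : F₂ →+* F₂') (hl : ∀ x, l₂ (a x) = a' (l₁ x))
    (hdeg : finrankAlong K a = finrankAlong K a') (hp : (finrankAlong K a').Prime)
    (z : F₂) (hz : l₂ z ∉ Set.range a') (f : F₂) :
    l₁ (normAlong a f) = normAlong a' (l₂ f) := by
  letI := algebraAlong a
  letI := algebraAlong a'
  haveI : FiniteDimensional F₁ F₂ := ha
  haveI : FiniteDimensional F₁' F₂' := ha'
  exact norm_baseChange_of_prime l₁ l₂ hl hdeg hp z hz f

end Abstract

section Level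

variable {M M' q : ℕ} [NeZero M] [NeZero M'] [NeZero q] (h : M ∣ M')

/-- The norm along `β` is compatible with the change of level (`q ∣ M`). -/
theorem lvl_normAlong_beta (hq : q.Prime) (hqM : q ∣ M) (f : FN (M * q)) :
    lvl h (normAlong (heckeBetaBar Kbar M q) f) =
      normAlong (heckeBetaBar Kbar M' q) (lvl (Nat.mul_dvd_mul_right h q) f) := by
  obtain ⟨ζ, hζ⟩ : ∃ ζ : Kbar, IsPrimitiveRoot ζ q :=
    HasEnoughRootsOfUnity.exists_primitiveRoot Kbar q
  apply Subtype.ext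
  apply qExpand_injective (R := Kbar) (N := q)
  rw [coe_lvl, qExpand_normAlong_beta hq hqM hζ f,
    qExpand_normAlong_beta hq (hqM.trans h) hζ (lvl (Nat.mul_dvd_mul_right h q) f), coe_lvl]

/-- `j(t^(q²))` does not belong to `F(M' q)` if `q ∤ M'`. -/
theorem jd_sq_not_mem_range_alpha (hq : q.Prime) (hqM' : ¬ q ∣ M') :
    FNAdjoin.jd (M' * q * q) (q * q) ⟨M', by ring⟩ ∉
      Set.range (heckeAlphaBar Kbar (M' * q) q) := by
  rintro ⟨x, hx⟩
  have h1 := congrArg (fricke (M' * q * q)) hx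
  rw [fricke_alpha, fricke_jd (M' * q * q) (q * q) M' (by ring)] at h1
  have h2 := congrArg (fun y : FN (M' * q * q) => (y : LaurentSeries Kbar).coeff ((M' : ℤ) * (-1))) h1
  rw [coe_heckeBetaBar, FNAdjoin.coe_jd', qExpand_coeff_mul, coeff_jK_neg_one,
    qExpand_coeff_of_not_dvd] at h2
  · exact zero_ne_one h2
  · rw [mul_neg_one, Int.dvd_neg, Int.natCast_dvd_natCast]
    exact hqM'

/-- The norm along `α` at level `M q²` is compatible with the change of level. -/
theorem lvl_normAlong_alpha (hq : q.Prime) (hqM' : ¬ q ∣ M') (f : FN (M * q * q)) :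
    lvl (Nat.mul_dvd_mul_right h q) (normAlong (heckeAlphaBar Kbar (M * q) q) f) =
      normAlong (heckeAlphaBar Kbar (M' * q) q)
        (lvl (Nat.mul_dvd_mul_right (Nat.mul_dvd_mul_right h q) q) f) := by
  have hd : finrankAlong Kbar (heckeAlphaBar Kbar (M * q) q) = q :=
    finrankAlong_alpha_of_dvd hq (Dvd.intro_left M rfl)
  have hd' : finrankAlong Kbar (heckeAlphaBar Kbar (M' * q) q) = q :=
    finrankAlong_alpha_of_dvd hq (Dvd.intro_left M' rfl)
  refine normAlong_baseChange_of_prime (heckeAlphaBar Kbar (M * q) q)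
    (heckeAlphaBar Kbar (M' * q) q) (finiteAlong_alpha (M * q) q) (finiteAlong_alpha (M' * q) q)
    (lvl (Nat.mul_dvd_mul_right h q) : FN (M * q) →+* FN (M' * q))
    (lvl (Nat.mul_dvd_mul_right (Nat.mul_dvd_mul_right h q) q) : FN (M * q * q) →+* FN (M' * q * q))
    (fun x => lvl_alpha (Nat.mul_dvd_mul_right h q) x) (by rw [hd, hd']) (by rw [hd']; exact hq)
    (FNAdjoin.jd (M * q * q) (q * q) ⟨M, by ring⟩) ?_ f
  have h3 : (lvl (Nat.mul_dvd_mul_right (Nat.mul_dvd_mul_right h q) q) :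
      FN (M * q * q) →+* FN (M' * q * q)) (FNAdjoin.jd (M * q * q) (q * q) ⟨M, by ring⟩) =
      FNAdjoin.jd (M' * q * q) (q * q) ⟨M', by ring⟩ :=
    Subtype.ext (coe_lvl (Nat.mul_dvd_mul_right (Nat.mul_dvd_mul_right h q) q) _)
  rw [h3]
  exact jd_sq_not_mem_range_alpha hq hqM'

theorem lvlKV_betaKV (hq : q.Prime) (hqM : q ∣ M) (m : ℕ) (x : KV Kbar (FN (M * q)) m) :
    lvlKV h m (betaKV M q m x) = betaKV M' q m (lvlKV (Nat.mul_dvd_mul_right h q) m x) := by
  obtain ⟨u, rfl⟩ := KV.mk_surjective x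
  rw [betaKV, KV.map_mk, lvlKV_mk, lvlKV_mk, betaKV, KV.map_mk]
  refine congrArg KV.mk (Subtype.ext (Units.ext ?_))
  exact lvl_normAlong_beta h hq hqM _

theorem lvlKV_alphaKV_sq (hq : q.Prime) (hqM' : ¬ q ∣ M') (m : ℕ)
    (x : KV Kbar (FN (M * q * q)) m) :
    lvlKV (Nat.mul_dvd_mul_right h q) m (alphaKV (M * q) q m x) =
      alphaKV (M' * q) q m (lvlKV (Nat.mul_dvd_mul_right (Nat.mul_dvd_mul_right h q) q) m x) := by
  obtain ⟨u, rfl⟩ := KV.mk_surjective x
  rw [alphaKV, KV.map_mk, lvlKV_mk, lvlKV_mk, alphaKV, KV.map_mk]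
  refine congrArg KV.mk (Subtype.ext (Units.ext ?_))
  exact lvl_normAlong_alpha h hq hqM' _

end Level

/-- **Level change for Theorem X.** -/
theorem kvNewInertia_of_dvd (M M' q p : ℕ) [NeZero M] [NeZero M'] [NeZero q] (h : M ∣ M')
    (hq : q.Prime) (hqM' : ¬ q ∣ M') (hX : KVNewInertia (M' * q) q p) :
    KVNewInertia (M * q) q p := by
  obtain ⟨d, hd, hX⟩ := hX
  have h1 : M * q ∣ M' * q := Nat.mul_dvd_mul_right h q
  have h2 : M * q * q ∣ M' * q * q := Nat.mul_dvd_mul_right h1 q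
  refine ⟨finrankAlong Kbar (lvl h2) * d,
    mul_ne_zero (finrankAlong_ne_zero _ (finiteAlong_lvl h2)) hd, ?_⟩
  intro k A hA x hI ha hb
  rw [mul_smul]
  apply nsmul_eq_zero_of_lvlKV h2
  rw [map_nsmul]
  refine hX k A hA _ (fun σ hσ => ?_) ?_ ?_
  · rw [← lvlKV_galois, hI σ hσ]
  · rw [← lvlKV_alphaKV_sq h hq hqM', ha, map_zero]
  · rw [← lvlKV_betaKV h1 hq (Dvd.intro_left M rfl), hb, map_zero]

/-- **It is enough to prove Theorem X at neat levels.** -/
theorem kvNewInertia_of_neat (q p : ℕ) [NeZero q] (hq : q.Prime)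
    (H : ∀ (M : ℕ) [NeZero M], ¬ q ∣ M → (4 ∣ M ∨ 9 ∣ M) → KVNewInertia (M * q) q p) :
    ∀ (M : ℕ) [NeZero M], q ∣ M → ¬ q ^ 2 ∣ M → KVNewInertia M q p := by
  intro M _ hqM hq2
  obtain ⟨M₀, rfl⟩ : ∃ M₀, M = M₀ * q := by
    obtain ⟨c, rfl⟩ := hqM
    exact ⟨c, mul_comm _ _⟩
  have hM₀ : ¬ q ∣ M₀ := by
    rintro ⟨c, rfl⟩
    exact hq2 ⟨c, by ring⟩
  haveI : NeZero M₀ := ⟨fun h0 => NeZero.ne (M₀ * q) (by rw [h0, zero_mul])⟩
  obtain ⟨M', hM'0, hdvd, hneat, hqM'⟩ := exists_neat_multiple M₀ q hq hM₀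
  haveI : NeZero M' := ⟨hM'0⟩
  exact kvNewInertia_of_dvd M₀ M' q p hdvd hq hqM' (H M' hqM' hneat)

end Fermat.Agent.S36.Lvl
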